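import Fermat.Agent.EC.Rep.Local.Flat
import Fermat.Agent.CFT.Tangent.BaseChange
import Mathlib.RingTheory.Filtration
import Mathlib.RingTheory.HopfAlgebra.Convolution
import Mathlib.LinearAlgebra.TensorProduct.Finiteness

/-!
# Galois orders from Hopf algebras of points
-/

set_option autoImplicit false

noncomputable section

open IsLocalRing Module WithConv
open scoped TensorProduct

namespace Fermat.Agent.RT.Glue

open FiniteFlat (GalOrder Zl)
open Arith (GQ QBar)

section Order

variable {l : ℕ} {M : Type} [AddCommGroup M] [DistribMulAction GQ M]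
  {H : Type} [CommRing H] [HopfAlgebra (Zl l) H] [Module.Finite (Zl l) H]
  (e : WithConv (H →ₐ[Zl l] QBar) ≃ M)

/-- The functions on the points given by a Hopf algebra. -/
def pointFn : H →ₐ[Zl l] (M → QBar) :=
  AlgHom.pi fun m => (e.symm m).ofConv

omit [AddCommGroup M] [DistribMulAction GQ M] [Module.Finite (Zl l) H] in
theorem pointFn_apply (h : H) (m : M) : pointFn e h m = (e.symm m).ofConv h := rfl

/-- A Galois order from a Hopf algebra with the given points. -/
theorem nonempty_galOrder_of_hopf (he : ∀ f g, e (f * g) = e f + e g)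
    (hσ : ∀ (σ : GQ) (f g : WithConv (H →ₐ[Zl l] QBar)), (∀ h : H, g h = σ (f h)) →
      e g = σ • e f) : Nonempty (GalOrder l M) := by
  classical
  have hmul : ∀ x y : M, e.symm (x + y) = e.symm x * e.symm y := fun x y =>
    e.injective (by rw [e.apply_symm_apply, he, e.apply_symm_apply, e.apply_symm_apply])
  have hone : e 1 = 0 := by
    have h := he 1 1
    rw [one_mul] at h
    simpa using h
  refine ⟨⟨(pointFn e).range, ?_, ?_, fun m m' hm => ?_, ?_, ?_⟩⟩
  · rintro _ ⟨h, rfl⟩ σ m
    let g : WithConv (H →ₐ[Zl l] QBar) :=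
      toConv ((σ.toAlgHom.restrictScalars (Zl l)).comp (e.symm m).ofConv)
    have hg : e g = σ • m := by rw [hσ σ (e.symm m) g fun h => rfl, e.apply_symm_apply]
    show pointFn e h (σ • m) = σ (pointFn e h m)
    rw [pointFn_apply, ← hg, e.symm_apply_apply]
    rfl
  · exact Module.Finite.of_surjective (pointFn e).rangeRestrict.toLinearMap
      (pointFn e).rangeRestrict_surjective
  · exact e.symm.injective (WithConv.ofConv_injective (AlgHom.ext fun h => hm _ ⟨h, rfl⟩))
  · rintro _ ⟨h, rfl⟩
    obtain ⟨s, hs⟩ := TensorProduct.exists_finset (Coalgebra.comul (R := Zl l) h)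
    let E := s.equivFin
    refine ⟨s.card, fun i => pointFn e (E.symm i).1.1, fun i => pointFn e (E.symm i).1.2,
      fun i => ⟨_, rfl⟩, fun i => ⟨_, rfl⟩, fun x y => ?_⟩
    show pointFn e h (x + y) = _
    rw [pointFn_apply, hmul]
    refine (AlgHom.convMul_apply _ _ h).trans ?_
    rw [hs, map_sum, ← Finset.sum_coe_sort]
    exact (Fintype.sum_equiv E _ _ fun i => by simp [pointFn_apply])
  · rintro _ ⟨h, rfl⟩
    refine ⟨HopfAlgebra.antipodeAlgHom (Zl l) H h, funext fun x => ?_⟩
    let g : WithConv (H →ₐ[Zl l] QBar) :=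
      toConv ((e.symm x).ofConv.comp (HopfAlgebra.antipodeAlgHom (Zl l) H))
    have hg : g * e.symm x = 1 := by
      refine WithConv.ofConv_injective (AlgHom.ext fun a => ?_)
      refine (AlgHom.convMul_apply _ _ a).trans ?_
      obtain ⟨s, hs⟩ := TensorProduct.exists_finset (Coalgebra.comul (R := Zl l) a)
      have h1 := congrArg (e.symm x).ofConv
        (HopfAlgebra.mul_antipode_rTensor_comul_apply (R := Zl l) a)
      rw [hs, map_sum, map_sum, map_sum] at h1
      rw [hs, map_sum, AlgHom.convOne_apply]
      refine Eq.trans (Finset.sum_congr rfl fun i _ => ?_) (h1.trans ((e.symm x).ofConv.commutes _))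
      simp [g]
    have hneg : e g = -x := by
      have h1 := he g (e.symm x)
      rw [hg, hone, e.apply_symm_apply] at h1
      exact eq_neg_of_add_eq_zero_left h1.symm
    show pointFn e _ x = pointFn e h (-x)
    rw [pointFn_apply, pointFn_apply, ← hneg, e.symm_apply_apply]
    rfl

end Order

end Fermat.Agent.RT.Glue
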