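import Fermat.Agent.RT.Glue.Saturation
import Fermat.Agent.RT.Glue.Separate

/-!
# Elements of a ring from integral approximations of their values

In a finite local algebra over a complete discrete valuation ring, separated by points in an
algebraic closure, values approximated modulo every power of `p` by elements of the algebra come
from an element.
-/

set_option autoImplicit false

noncomputable section

open IsLocalRing

namespace Fermat.Agent.RT.Glue

variable {O : Type} [CommRing O] [IsDomain O]

/-- An integral multiple of `p ^ N`. -/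
def IsIntMul (p N : ℕ) (c : AlgebraicClosure (FractionRing O)) : Prop :=
  ∃ r, IsIntegral O r ∧ c = (p : AlgebraicClosure (FractionRing O)) ^ N * r

variable {p : ℕ}

theorem IsIntMul.anti {M N : ℕ} (h : M ≤ N) {c : AlgebraicClosure (FractionRing O)}
    (hc : IsIntMul p N c) : IsIntMul p M c := by
  obtain ⟨r, hr, rfl⟩ := hc
  refine ⟨(p : AlgebraicClosure (FractionRing O)) ^ (N - M) * r, ?_, ?_⟩
  · rw [← map_natCast (algebraMap O (AlgebraicClosure (FractionRing O)))]
    exact (isIntegral_algebraMap.pow _).mul hr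
  · rw [← mul_assoc, ← pow_add, Nat.add_sub_cancel' h]

theorem IsIntMul.add {N : ℕ} {c c' : AlgebraicClosure (FractionRing O)} (hc : IsIntMul p N c)
    (hc' : IsIntMul p N c') : IsIntMul p N (c + c') := by
  obtain ⟨r, hr, rfl⟩ := hc
  obtain ⟨s, hs, rfl⟩ := hc'
  exact ⟨r + s, hr.add hs, (mul_add _ _ _).symm⟩

theorem IsIntMul.sub {N : ℕ} {c c' : AlgebraicClosure (FractionRing O)} (hc : IsIntMul p N c)
    (hc' : IsIntMul p N c') : IsIntMul p N (c - c') := by
  obtain ⟨r, hr, rfl⟩ := hc
  obtain ⟨s, hs, rfl⟩ := hc'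
  exact ⟨r - s, hr.sub hs, (mul_sub _ _ _).symm⟩

variable {A : Type} [CommRing A] [Algebra O A] [Module.Finite O A]

theorem isIntMul_of_mem {N : ℕ} {x : A} (θ : A →ₐ[O] AlgebraicClosure (FractionRing O))
    (hx : x ∈ Ideal.span {(p : A) ^ N}) : IsIntMul p N (θ x) := by
  obtain ⟨a, rfl⟩ := Ideal.mem_span_singleton'.1 hx
  exact ⟨θ a, (Algebra.IsIntegral.isIntegral (R := O) a).map θ,
    by rw [map_mul, map_pow, map_natCast, mul_comm]⟩

variable [IsDiscreteValuationRing O] [IsLocalRing A]

/-- A power of the maximal ideal lies in `(p)`. -/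
theorem exists_pow_le_span (hp0 : (p : O) ≠ 0) :
    ∃ k, maximalIdeal A ^ k ≤ Ideal.span {(p : A)} := by
  have : IsNoetherianRing A := IsNoetherianRing.of_finite O A
  refine Ideal.exists_pow_le_of_le_radical_of_fg ?_ (IsNoetherian.noetherian _)
  rw [Ideal.radical_eq_sInf]
  refine le_sInf fun P ⟨hle, hP⟩ => le_of_eq (Eq.symm ?_)
  have : P.IsPrime := hP
  refine eq_maximalIdeal (Ideal.isMaximal_of_isIntegral_of_isMaximal_comap (R := O) P ?_)
  have h0 : P.comap (algebraMap O A) ≠ ⊥ := fun h => by
    have : (p : O) ∈ P.comap (algebraMap O A) := by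
      rw [Ideal.mem_comap, map_natCast]
      exact hle (Ideal.mem_span_singleton_self _)
    rw [h, Ideal.mem_bot] at this
    exact hp0 this
  exact (Ideal.comap_isPrime _ P).isMaximal h0

variable [CharZero O] [IsAdicComplete (maximalIdeal O) O] [Finite (ResidueField O)]
  [IsAdicComplete (maximalIdeal A) A] [Finite (ResidueField A)] (hp0 : p ≠ 0)
  (hp : (p : O) ∈ maximalIdeal O) (hpA : (p : A) ∈ maximalIdeal A) {ι : Type}
  (π : ι → A →ₐ[O] AlgebraicClosure (FractionRing O))
  (hsep : ∀ x : A, (∀ i, π i x = 0) → x = 0)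

include hp0 hp hpA hsep

theorem exists_saturation_values (n : ℕ) :
    ∃ N, ∀ x : A, (∀ i, IsIntMul p N (π i x)) → x ∈ Ideal.span {(p : A) ^ n} := by
  have : IsNoetherianRing A := IsNoetherianRing.of_finite O A
  exact exists_saturation hpA (exists_pow_le_span (O := O) (Nat.cast_ne_zero.2 hp0))
    (fun N x => ∀ i, IsIntMul p N (π i x)) (fun _ _ h _ hx i => (hx i).anti h)
    (fun _ _ _ hx hy i => by rw [map_add]; exact (hx i).add (isIntMul_of_mem (π i) hy))
    (fun x hx => hsep x fun i => eq_zero_of_forall_integral hp fun N => hx N i) n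

/-- Values approximated by elements of the algebra come from an element. -/
theorem exists_value_of_approx (val : ι → AlgebraicClosure (FractionRing O)) (t : ℕ → A)
    (ht : ∀ N i, IsIntMul p N (val i - π i (t N))) :
    ∃ x : A, (∀ i, π i x = val i) ∧ ∃ m, x - t m ∈ maximalIdeal A := by
  choose N hN using exists_saturation_values hp0 hp hpA π hsep
  let N' : ℕ → ℕ := fun m => m + (Finset.range (m + 1)).sup N
  have hmono : ∀ m, N' m ≤ N' (m + 1) := fun m =>
    Nat.add_le_add (Nat.le_succ m) (Finset.sup_mono (Finset.range_mono (Nat.le_succ _)))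
  have hge : ∀ m, N m ≤ N' m := fun m =>
    (Finset.le_sup (Finset.self_mem_range_succ m)).trans (Nat.le_add_left _ _)
  obtain ⟨x, hx⟩ := exists_limit hpA (exists_pow_le_span (O := O) (Nat.cast_ne_zero.2 hp0))
    (fun m => t (N' m)) fun m => hN m _ fun i => by
      have e := ((ht (N' m) i).sub ((ht (N' (m + 1)) i).anti (hmono m))).anti (hge m)
      rwa [sub_sub_sub_cancel_left, ← map_sub] at e
  refine ⟨x, fun i => (sub_eq_zero.1 (eq_zero_of_forall_integral hp fun m => ?_)).symm, N' 1, ?_⟩
  · have e := ((ht (N' m) i).anti (Nat.le_add_right m _)).sub (isIntMul_of_mem (π i) (hx m))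
    rwa [map_sub, sub_sub_sub_cancel_right] at e
  · refine (Ideal.span_singleton_le_iff_mem _).2 ?_ (hx 1)
    rwa [pow_one]

end Fermat.Agent.RT.Glue

end
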