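import Fermat.Agent.RT.Glue.Pointwise
import Fermat.Agent.RT.Glue.Values

/-!
# Traces and determinants in the Hecke algebra

The pointwise traces are approximated modulo every power of `p` by Hecke operators, hence come from
the Hecke algebra; the pointwise determinants are the cyclotomic character.
-/

set_option autoImplicit false

noncomputable section

open IsLocalRing

namespace Fermat.Agent.RT.Glue

open GaloisReps (AbsGal HeckeGaloisModel powerTrace)

variable {O : Type} [CommRing O] [IsDomain O] [IsDiscreteValuationRing O]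
  {p : ℕ} [Fact p.Prime]
  {L : ℕ} {Δ : Type} [CommGroup Δ] {ψ : (ZMod L)ˣ →* Δ} {S : Finset ℕ}
  {abar : ℕ → ResidueField O}

/-- The value of every point at `x` is an integral multiple of `p ^ N`. -/
def Small (p : ℕ) (H : HeckeModule L ψ S abar) (N : ℕ) (x : H.algebra) : Prop :=
  ∀ θ : H.algebra →ₐ[O] KBar O, IsIntMul p N (θ x)

variable {H : HeckeModule L ψ S abar}

theorem isIntegral_point [Finite Δ] (θ : H.algebra →ₐ[O] KBar O) (x : H.algebra) :
    IsIntegral O (θ x) :=
  (Algebra.IsIntegral.isIntegral (R := O) x).map θ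

variable [IsAdicComplete (maximalIdeal O) O] [Finite (ResidueField O)] [CharZero O] [Finite Δ]
  (hp : (p : O) ∈ maximalIdeal O) (hΔ : IsPGroup p Δ) [IsLocalRing H.algebra]

omit [IsAdicComplete (maximalIdeal O) O] [Finite (ResidueField O)] [CharZero O]
  [IsLocalRing H.algebra] in
theorem eq_zero_of_forall_point {x : H.algebra}
    (h : ∀ θ : H.algebra →ₐ[O] KBar O, θ x = 0) : x = 0 := by
  have : IsReduced H.algebra := H.isReduced
  have : Module.IsTorsionFree O H.algebra :=
    Function.Injective.moduleIsTorsionFree (fun x : H.algebra => (x : Module.End O H.M))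
      Subtype.val_injective fun _ _ => rfl
  by_contra hx
  obtain ⟨θ, hθ⟩ := exists_algHom_apply_ne_zero (O := O) hx
  exact hθ (h θ)

omit [IsAdicComplete (maximalIdeal O) O] [Finite (ResidueField O)] [CharZero O]
  [Fact (Nat.Prime p)] in
include hp hΔ in
theorem natCast_mem : (p : H.algebra) ∈ maximalIdeal H.algebra := by
  have := isLocalHom_algebraMap H hp hΔ
  rw [← map_natCast (algebraMap O H.algebra)]
  exact map_nonunit (algebraMap O H.algebra) _ hp

omit [IsAdicComplete (maximalIdeal O) O] [CharZero O] [Finite Δ] in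
theorem finite_residueField_algebra (hres : Function.Surjective
    (residue H.algebra ∘ algebraMap O H.algebra)) [IsLocalHom (algebraMap O H.algebra)] :
    Finite (ResidueField H.algebra) :=
  Finite.of_surjective (ResidueField.map (algebraMap O H.algebra)) fun y => by
    obtain ⟨a, rfl⟩ := hres y
    exact ⟨residue O a, ResidueField.map_residue _ _⟩

include hp hΔ in
theorem exists_saturation_algebra (n : ℕ) :
    ∃ N, ∀ x : H.algebra, Small p H N x → x ∈ Ideal.span {(p : H.algebra) ^ n} := by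
  have := isLocalHom_algebraMap H hp hΔ
  have := isAdicComplete_algebra H
  have := finite_residueField_algebra (H := H) (residue_algebraMap_surjective H hp hΔ)
  exact exists_saturation_values (Fact.out : p.Prime).ne_zero hp (natCast_mem hp hΔ)
    (fun θ : H.algebra →ₐ[O] KBar O => θ) (fun _ h => eq_zero_of_forall_point h) n

section Galois

omit [Finite Δ] [IsLocalRing H.algebra]

variable (D : ∀ (M : ℕ) [NeZero M], HeckeGaloisModel M p)

/-- One finite level for all the models of level dividing `L ^ 2`. -/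
theorem exists_levelField [NeZero L] (n : ℕ) :
    ∃ F : IntermediateField ℚ (AlgebraicClosure ℚ), FiniteDimensional ℚ F ∧
      ∀ σ : AbsGal, (∀ x ∈ F, σ x = x) → ∀ (M : ℕ) [NeZero M], M ∣ L ^ 2 →
        ((D M).gal σ).map (PadicInt.toZModPow n) = 1 := by
  suffices h : ∀ s : Finset ℕ, ∃ F : IntermediateField ℚ (AlgebraicClosure ℚ),
      FiniteDimensional ℚ F ∧ ∀ σ : AbsGal, (∀ x ∈ F, σ x = x) → ∀ (M : ℕ) [NeZero M], M ∈ s →
        ((D M).gal σ).map (PadicInt.toZModPow n) = 1 by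
    obtain ⟨F, hF, h⟩ := h (L ^ 2).divisors
    exact ⟨F, hF, fun σ hσ M _ hM =>
      h σ hσ M (Nat.mem_divisors.2 ⟨hM, pow_ne_zero 2 (NeZero.ne L)⟩)⟩
  intro s
  induction s using Finset.induction_on with
  | empty => exact ⟨⊥, inferInstance, fun _ _ M _ hM => absurd hM (Finset.notMem_empty M)⟩
  | insert M s _ ih =>
    obtain ⟨F, hF, h⟩ := ih
    rcases eq_or_ne M 0 with rfl | hM
    · exact ⟨F, hF, fun σ hσ M' _ hM' => h σ hσ M'
        ((Finset.mem_insert.1 hM').resolve_left (NeZero.ne M'))⟩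
    · have : NeZero M := ⟨hM⟩
      obtain ⟨F', hF', h'⟩ := (D M).gal_continuous n
      refine ⟨F ⊔ F', inferInstance, fun σ hσ M' _ hM' => ?_⟩
      rcases Finset.mem_insert.1 hM' with rfl | hM'
      · exact h' σ fun x hx => hσ x (le_sup_right (a := F) hx)
      · exact h σ (fun x hx => hσ x (le_sup_left (b := F') hx)) M' hM'

/-- Two exponents of the action on primitive roots of order `p ^ n` are congruent. -/
theorem natCast_congr_of_roots {A : Type} [CommRing A] {σ : AbsGal} {n a b : ℕ}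
    (ha : ∀ μ : AlgebraicClosure ℚ, μ ^ p ^ n = 1 → σ μ = μ ^ a)
    (hb : ∀ μ : AlgebraicClosure ℚ, μ ^ p ^ n = 1 → σ μ = μ ^ b) :
    (a : A) - b ∈ Ideal.span {(p : A) ^ n} := by
  have : NeZero (p ^ n) := ⟨pow_ne_zero _ (Fact.out : p.Prime).ne_zero⟩
  obtain ⟨ζ, hζ⟩ := GaloisReps.exists_primitiveRoot (p ^ n)
  have h := (hζ.isOfFinOrder (NeZero.ne _)).pow_eq_pow_iff_modEq.mp
    ((hb ζ hζ.pow_eq_one).symm.trans (ha ζ hζ.pow_eq_one))
  rw [← hζ.eq_orderOf, Nat.modEq_iff_dvd] at h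
  rw [Ideal.mem_span_singleton]
  simpa using map_dvd (Int.castRingHom A) h

theorem exists_exponent (σ : AbsGal) (n : ℕ) :
    ∃ a : ℕ, ∀ μ : AlgebraicClosure ℚ, μ ^ p ^ n = 1 → σ μ = μ ^ a := by
  have : NeZero (p ^ n) := ⟨pow_ne_zero _ (Fact.out : p.Prime).ne_zero⟩
  obtain ⟨ζ, hζ⟩ := GaloisReps.exists_primitiveRoot (p ^ n)
  obtain ⟨a, -, ha⟩ := hζ.eq_pow_of_pow_eq_one
    (show (σ ζ) ^ p ^ n = 1 by rw [← map_pow, hζ.pow_eq_one, map_one])
  refine ⟨a, fun μ hμ => ?_⟩
  obtain ⟨j, -, rfl⟩ := hζ.eq_pow_of_pow_eq_one hμ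
  rw [map_pow, ← ha, pow_right_comm]

variable {hS : ∀ q : ℕ, q.Prime → q ∣ L → q ∈ S} {θK : H.algebra →+* KBar O}
  (P : Point (p := p) H hS θK)

/-- `j` as an algebra homomorphism. -/
def Point.jAlg : P.R →ₐ[O] KBar O :=
  { P.j with commutes' := fun r => RingHom.congr_fun P.j_algebraMap r }

omit [IsAdicComplete (maximalIdeal O) O] [Finite (ResidueField O)] [CharZero O] in
theorem Point.isIntegral_j (r : P.R) : IsIntegral O (P.j r) :=
  (Algebra.IsIntegral.isIntegral (R := O) r).map P.jAlg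

omit [IsAdicComplete (maximalIdeal O) O] [Finite (ResidueField O)] [CharZero O] in
theorem Point.trace_congr {n : ℕ} {g h : AbsGal}
    (hgh : ((D P.M).gal (g⁻¹ * h)).map (PadicInt.toZModPow n) = 1) :
    ∃ r, IsIntegral O r ∧
      (P.rep D h).trace - (P.rep D g).trace = (p : KBar O) ^ n * r := by
  obtain ⟨a, ha⟩ := (D P.M).eigenMatrix_congr P.ι P.θ' hgh 0 0
  obtain ⟨b, hb⟩ := (D P.M).eigenMatrix_congr P.ι P.θ' hgh 1 1
  refine ⟨P.j (a + b), P.isIntegral_j _, ?_⟩
  rw [P.rep_apply D, P.rep_apply D, Matrix.trace_fin_two, Matrix.trace_fin_two,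
    Matrix.map_apply, Matrix.map_apply, Matrix.map_apply, Matrix.map_apply, ← map_natCast P.j,
    ← map_pow, ← map_mul, ← map_add, ← map_add, ← map_sub, mul_add, ← ha, ← hb, add_sub_add_comm]

omit [IsAdicComplete (maximalIdeal O) O] [Finite (ResidueField O)] [CharZero O] in
theorem Point.det_congr {σ : AbsGal} {n a : ℕ}
    (ha : ∀ μ : AlgebraicClosure ℚ, μ ^ p ^ n = 1 → σ μ = μ ^ a) :
    ∃ r, IsIntegral O r ∧ (P.rep D σ).det - a = (p : KBar O) ^ n * r := by
  obtain ⟨c, hc⟩ := (D P.M).det_eigenAction_congr P.ι P.θ' P.p_mem ha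
  refine ⟨P.j c, P.isIntegral_j _, ?_⟩
  rw [P.det_rep D, ← map_natCast P.j, ← map_sub, hc, map_mul, map_pow, map_natCast]

omit [IsAdicComplete (maximalIdeal O) O] [Finite (ResidueField O)] [CharZero O] in
/-- The traces of the powers of a Frobenius element. -/
theorem Point.trace_frobenius_pow (hpS : p ∈ S) {ℓ : ℕ} (hℓ : ℓ.Prime) (hℓS : ℓ ∉ S)
    {A : ValuationSubring (AlgebraicClosure ℚ)} (hA : A.LiesOverPrime ℓ) {s : AbsGal}
    (hs : A.IsFrobeniusAt s ℓ) (i : ℕ) :
    (P.rep D (s ^ i)).trace = θK (powerTrace (sA H hS hℓ hℓS) (ℓ : H.algebra) i) := by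
  have hℓM : ¬ ℓ ∣ P.M * p := fun h => (hℓ.dvd_mul.1 h).elim
    (fun h => hℓS (hS ℓ hℓ (hℓ.dvd_of_dvd_pow (h.trans P.dvd))))
    (fun h => hℓS (by rw [(Nat.prime_dvd_prime_iff_eq hℓ Fact.out).1 h]; exact hpS))
  rw [P.trace_rep D, map_pow, GaloisReps.trace_pow_of_charpoly
    ((D P.M).finrank_eigenspace_domain P.θ') _ _ ℓ
    ((D P.M).charpoly_eigenAction_frobenius P.ι P.θ' GaloisReps.frobeniusDensity P.p_mem hℓ hℓM
      hA hs) i, GaloisReps.map_powerTrace, GaloisReps.map_powerTrace, map_natCast, map_natCast,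
    P.value hℓ hℓS]

end Galois

section Trace

variable {hS : ∀ q : ℕ, q.Prime → q ∣ L → q ∈ S} [NeZero L]
  (D : ∀ (M : ℕ) [NeZero M], HeckeGaloisModel M p)
  (pt : ∀ θ : H.algebra →ₐ[O] KBar O, Point (p := p) H hS θ.toRingHom)
  {ρbar : ResidualGaloisRep (ResidueField O)}

/-- The Frobenius characteristic polynomials of `ρbar` outside `S` come from `abar`. -/
def HasCharpolys (S : Finset ℕ) (abar : ℕ → ResidueField O)
    (ρbar : ResidualGaloisRep (ResidueField O)) : Prop :=
  ∀ ℓ : ℕ, ℓ.Prime → ℓ ∉ S → ∀ A : ValuationSubring (AlgebraicClosure ℚ), A.LiesOverPrime ℓ →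
    ∀ s : AbsGal, A.IsFrobeniusAt s ℓ → LinearMap.charpoly (ρbar.ρ s) =
      Polynomial.X ^ 2 - Polynomial.C (abar ℓ) * Polynomial.X + Polynomial.C (ℓ : ResidueField O)

omit [IsAdicComplete (maximalIdeal O) O] [Finite (ResidueField O)] [CharZero O] [NeZero L] in
include hp hΔ in
theorem residue_sA [IsLocalHom (algebraMap O H.algebra)] {ℓ : ℕ} (hℓ : ℓ.Prime) (hℓS : ℓ ∉ S) :
    residue H.algebra (sA H hS hℓ hℓS) =
      ResidueField.map (algebraMap O H.algebra) (abar ℓ) := by
  obtain ⟨a, ha⟩ := residue_surjective (R := O) (abar ℓ)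
  rw [sA, map_mul, map_pow, residue_diaA H hp hΔ, one_pow, one_mul, residue_TA H hℓ hℓS ha,
    ← ha, ResidueField.map_residue]

omit [IsAdicComplete (maximalIdeal O) O] [Finite (ResidueField O)] [CharZero O] in
include hp hΔ in
theorem exists_approx [IsLocalHom (algebraMap O H.algebra)] (hpS : p ∈ S)
    (hbar : HasCharpolys S abar ρbar) (σ : AbsGal) (n : ℕ) :
    ∃ t : H.algebra,
      (∀ θ : H.algebra →ₐ[O] KBar O, ∃ r, IsIntegral O r ∧
        ((pt θ).rep D σ).trace - θ t = (p : KBar O) ^ n * r) ∧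
      residue H.algebra t = ResidueField.map (algebraMap O H.algebra)
        (LinearMap.trace (ResidueField O) ρbar.V (ρbar.ρ σ)) := by
  obtain ⟨F, hF, hlev⟩ := exists_levelField (L := L) D n
  obtain ⟨F', hF', hbar'⟩ := ρbar.factorsThroughFiniteLevel
  obtain ⟨ℓ, hℓ, hℓS, A, hA, s, hs, i, hi⟩ :=
    GaloisReps.frobeniusDensity (F ⊔ F') inferInstance σ S
  have hfix := GaloisReps.inv_mul_fixes (g := s ^ i) (h := σ) (fun x hx => (hi x hx).symm)
  refine ⟨powerTrace (sA H hS hℓ hℓS) (ℓ : H.algebra) i, fun θ => ?_, ?_⟩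
  · obtain ⟨r, hr, he⟩ := (pt θ).trace_congr D (n := n) (g := s ^ i) (h := σ)
      (hlev _ (fun x hx => hfix x (le_sup_left (b := F') hx)) _ (pt θ).dvd)
    rw [(pt θ).trace_frobenius_pow D hpS hℓ hℓS hA hs i] at he
    exact ⟨r, hr, he⟩
  · have h1 := hbar' _ fun x hx => hfix x (le_sup_right (a := F) hx)
    have hσ : ρbar.ρ σ = ρbar.ρ (s ^ i) := by
      rw [← mul_inv_cancel_left (s ^ i) σ, map_mul, h1, mul_one]
    rw [hσ, map_pow, GaloisReps.trace_pow_of_charpoly ρbar.finrank_eq _ _ ℓ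
      (hbar ℓ hℓ hℓS A hA s hs) i, GaloisReps.map_powerTrace, GaloisReps.map_powerTrace,
      map_natCast, map_natCast, residue_sA hp hΔ hℓ hℓS]

include hp hΔ in
theorem exists_trace [IsLocalHom (algebraMap O H.algebra)] (hpS : p ∈ S)
    (hbar : HasCharpolys S abar ρbar) (σ : AbsGal) :
    ∃ x : H.algebra, (∀ θ : H.algebra →ₐ[O] KBar O, ((pt θ).rep D σ).trace = θ x) ∧
      residue H.algebra x = ResidueField.map (algebraMap O H.algebra)
        (LinearMap.trace (ResidueField O) ρbar.V (ρbar.ρ σ)) := by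
  have := isAdicComplete_algebra H
  have := finite_residueField_algebra (H := H) (residue_algebraMap_surjective H hp hΔ)
  choose t ht htres using exists_approx hp hΔ D pt hpS hbar σ
  obtain ⟨x, hx, m, hm⟩ := exists_value_of_approx (Fact.out : p.Prime).ne_zero hp
    (natCast_mem hp hΔ) (fun θ : H.algebra →ₐ[O] KBar O => θ) (fun _ h => eq_zero_of_forall_point h)
    (fun θ => ((pt θ).rep D σ).trace) t fun N θ => ht N θ
  refine ⟨x, fun θ => (hx θ).symm, ?_⟩
  rw [← htres m, ← sub_eq_zero, ← map_sub, residue_eq_zero_iff]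
  exact hm

omit [NeZero L] in
include hp hΔ in
/-- The determinant is the cyclotomic character. -/
theorem exists_det [IsLocalHom (algebraMap O H.algebra)] (σ : AbsGal) :
    ∃ c : H.algebra, (∀ θ : H.algebra →ₐ[O] KBar O, ((pt θ).rep D σ).det = θ c) ∧
      ∀ n a : ℕ, (∀ μ : AlgebraicClosure ℚ, μ ^ p ^ n = 1 → σ μ = μ ^ a) →
        c - a ∈ Ideal.span {(p : H.algebra) ^ n} := by
  have := isAdicComplete_algebra H
  choose a ha using exists_exponent (p := p) σ
  have hdown : ∀ m, ∀ μ : AlgebraicClosure ℚ, μ ^ p ^ m = 1 → σ μ = μ ^ a (m + 1) :=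
    fun m μ hμ => ha (m + 1) μ (by rw [pow_succ, pow_mul, hμ, one_pow])
  obtain ⟨c, hc⟩ := exists_limit (natCast_mem (H := H) hp hΔ)
    (exists_pow_le_span (O := O) (Nat.cast_ne_zero.2 (Fact.out : p.Prime).ne_zero))
    (fun m => (a m : H.algebra)) fun m => natCast_congr_of_roots (hdown m) (ha m)
  refine ⟨c, fun θ => sub_eq_zero.1 (eq_zero_of_forall_integral hp fun m => ?_), fun n b hb => ?_⟩
  · have h := IsIntMul.sub ((pt θ).det_congr D (ha m)) (isIntMul_of_mem θ (hc m))
    rwa [map_sub, map_natCast, sub_sub_sub_cancel_right] at h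
  · simpa using add_mem (hc n) (natCast_congr_of_roots (A := H.algebra) (ha n) hb)

end Trace

end Fermat.Agent.RT.Glue
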