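import Fermat.Agent.RT.Glue.Basic

/-!
# Residual properties of the representations at the points
-/

set_option autoImplicit false

noncomputable section

open IsLocalRing Module
open scoped TensorProduct

namespace Fermat.Agent.RT.Glue

open GaloisReps (AbsGal HeckeGaloisModel)

/-- On a plane with an invariant line every commutator has trace zero against the representation. -/
theorem trace_commutator_eq_zero {K V G : Type} [Field K] [AddCommGroup V] [Module K V]
    [Monoid G] (r : G →* Module.End K V) (hV : finrank K V = 2) (W : Submodule K V)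
    (hW : ∀ σ, ∀ x ∈ W, r σ x ∈ W) (hbot : W ≠ ⊥) (htop : W ≠ ⊤) (k g h : G) :
    LinearMap.trace K V (r (k * g * h)) = LinearMap.trace K V (r (g * k * h)) := by
  have : FiniteDimensional K V := Module.finite_of_finrank_eq_succ hV
  obtain ⟨w, hwW, hw0⟩ := W.ne_bot_iff.1 hbot
  obtain ⟨y, -, hy⟩ := SetLike.exists_of_lt htop.lt_top
  have hli : LinearIndependent K ![w, y] := (LinearIndependent.pair_iff' hw0).2
    fun a ha => hy (ha ▸ W.smul_mem a hwW)
  let b := basisOfLinearIndependentOfCardEqFinrank hli (by simp [hV])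
  have htri : ∀ σ, LinearMap.toMatrix b b (r σ) 1 0 = 0 := fun σ => by
    have hb : r σ w = b.repr (r σ w) 0 • w + b.repr (r σ w) 1 • y := by
      conv_lhs => rw [← b.sum_repr (r σ w)]
      simp [Fin.sum_univ_two, b]
    by_contra hne
    refine hy ((W.smul_mem_iff (x := y) hne).1 ?_)
    rw [LinearMap.toMatrix_apply, show b 0 = w by simp [b],
      show b.repr (r σ w) 1 • y = r σ w - b.repr (r σ w) 0 • w by rw [eq_sub_iff_add_eq', ← hb]]
    exact sub_mem (hW σ w hwW) (W.smul_mem _ hwW)
  simp only [LinearMap.trace_eq_matrix_trace K b, map_mul, LinearMap.toMatrix_mul,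
    Matrix.trace_fin_two, Matrix.mul_apply, Fin.sum_univ_two, htri]
  ring

/-- A commutator of trace prime to the maximal ideal forces absolute irreducibility. -/
theorem isAbsolutelyIrreducible_of_trace_commutator {T : Type} [CommRing T] [IsLocalRing T]
    (ρ : GaloisRepAdic T)
    (h : ∃ k g h : AbsGal, IsUnit (LinearMap.trace T ρ.V (ρ.ρ (k * g * h)) -
      LinearMap.trace T ρ.V (ρ.ρ (g * k * h)))) : ρ.residual.IsAbsolutelyIrreducible := by
  obtain ⟨k, g, h, hu⟩ := h
  intro W hW
  by_contra hne
  rw [not_or] at hne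
  have h0 := trace_commutator_eq_zero (ρ.residual.baseChange (AlgebraicClosure (ResidueField T))).ρ
    (ρ.residual.baseChange (AlgebraicClosure (ResidueField T))).finrank_eq W hW hne.1 hne.2 k g h
  have htr : ∀ σ, LinearMap.trace (AlgebraicClosure (ResidueField T)) _
      ((ρ.residual.baseChange (AlgebraicClosure (ResidueField T))).ρ σ) =
      algebraMap (ResidueField T) _ (residue T (LinearMap.trace T ρ.V (ρ.ρ σ))) := fun σ => by
    show LinearMap.trace _ _
      (((ρ.ρ σ).baseChange (ResidueField T)).baseChange (AlgebraicClosure (ResidueField T))) = _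
    rw [LinearMap.trace_baseChange, LinearMap.trace_baseChange, ResidueField.algebraMap_eq]
  rw [htr, htr] at h0
  refine (residue_ne_zero_iff_isUnit _).2 hu ?_
  rw [map_sub, sub_eq_zero]
  exact (algebraMap (ResidueField T) _).injective h0

variable {O : Type} [CommRing O] [IsDomain O] [IsDiscreteValuationRing O]
  [IsAdicComplete (maximalIdeal O) O] [Finite (ResidueField O)] [CharZero O]
  {p : ℕ} [Fact p.Prime]
  {L : ℕ} [NeZero L] {Δ : Type} [CommGroup Δ] [Finite Δ] {ψ : (ZMod L)ˣ →* Δ} {S : Finset ℕ}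
  {abar : ℕ → ResidueField O}
  {H : HeckeModule L ψ S abar} {hS : ∀ q : ℕ, q.Prime → q ∣ L → q ∈ S}
  [IsLocalRing H.algebra] {D : ∀ (M : ℕ) [NeZero M], HeckeGaloisModel M p}
  {pt : ∀ θ : H.algebra →ₐ[O] KBar O, Point (p := p) H hS θ.toRingHom} (G : Glued D pt)
  (hp : (p : O) ∈ maximalIdeal O) (hΔ : IsPGroup p Δ)

/-- The adic representation at a point. -/
def Point.adicRep {θK : H.algebra →+* KBar O} (P : Point (p := p) H hS θK) : GaloisRepAdic P.R :=
  (D P.M).rep P.ι P.θ' P.p_mem

omit [IsAdicComplete (maximalIdeal O) O] [Finite (ResidueField O)] [CharZero O] [NeZero L]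
  [Finite Δ] in
theorem Glued.trace_adicRep (θ : H.algebra →ₐ[O] KBar O) (σ : AbsGal) :
    (pt θ).j (LinearMap.trace (pt θ).R _ (((pt θ).adicRep (D := D)).ρ σ)) =
      θ (LinearMap.trace H.algebra G.rep.V (G.rep.ρ σ)) := by
  rw [G.trace_rep, G.trace_eq, (pt θ).trace_rep D]
  rfl

omit [NeZero L] in
include hp in
/-- Values of the maximal ideal at a point lie in the maximal ideal. -/
theorem mem_maximal_of_point {θ : H.algebra →ₐ[O] KBar O} (P : Point (p := p) H hS θ.toRingHom)
    {x : H.algebra} (hx : x ∈ maximalIdeal H.algebra) {r : P.R} (hr : θ x = P.j r) :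
    r ∈ maximalIdeal P.R := by
  by_contra h
  have hu : IsUnit r := not_not.1 h
  obtain ⟨s, hs⟩ := hu.exists_right_inv
  obtain ⟨k, hk⟩ := exists_pow_le_span (O := O) (A := H.algebra)
    (Nat.cast_ne_zero.2 (Fact.out : p.Prime).ne_zero)
  obtain ⟨a, ha⟩ := Ideal.mem_span_singleton'.1 (hk (Ideal.pow_mem_pow hx k))
  refine one_ne_zero (α := KBar O) (eq_zero_of_forall_integral hp fun N => ?_)
  refine ⟨(θ a * P.j (s ^ k)) ^ N, ((isIntegral_point θ a).mul (P.isIntegral_j _)).pow N, ?_⟩
  rw [← mul_pow, ← mul_assoc, ← map_natCast θ, ← map_mul, mul_comm (p : H.algebra), ha, map_pow,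
    hr, ← map_pow P.j r, ← map_mul, ← mul_pow, hs, one_pow, map_one, one_pow]

omit [IsAdicComplete (maximalIdeal O) O] [Finite (ResidueField O)] [CharZero O] [NeZero L]
  [Finite Δ] in
/-- Some commutator of Galois elements has unit trace in the glued representation. -/
theorem Glued.exists_trace_commutator :
    ∃ k g h : AbsGal, IsUnit (LinearMap.trace H.algebra G.rep.V (G.rep.ρ (k * g * h)) -
      LinearMap.trace H.algebra G.rep.V (G.rep.ρ (g * k * h))) := by
  by_contra! hall
  simp only [G.trace_rep] at hall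
  have hm : ∀ k g h, (G.R k * G.R g * G.R h).trace - (G.R g * G.R k * G.R h).trace ∈
      maximalIdeal H.algebra := fun k g h => by
    rw [← map_mul, ← map_mul, ← map_mul, ← map_mul]
    exact hall k g h
  let m := maximalIdeal H.algebra
  have key : ∀ φ : Deform.M2 H.algebra →ₗ[H.algebra] H.algebra, (∀ g, φ (G.R g) ∈ m) →
      ∀ X, φ X ∈ m :=
    fun φ h X => (Submodule.span_le.2 (Set.range_subset_iff.2 h) :
      Submodule.span H.algebra (Set.range G.R) ≤ Submodule.comap φ m)
        (by rw [G.span_eq_top]; trivial)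
  let t := Matrix.traceLinearMap (Fin 2) H.algebra H.algebra
  have h1 : ∀ k g, ∀ Z : Deform.M2 H.algebra, ((G.R k * G.R g - G.R g * G.R k) * Z).trace ∈ m :=
    fun k g => key (t.comp (LinearMap.mulLeft H.algebra (G.R k * G.R g - G.R g * G.R k)))
      fun h => by
      simp only [t, LinearMap.comp_apply, LinearMap.mulLeft_apply, Matrix.traceLinearMap_apply,
        sub_mul, Matrix.trace_sub]
      exact hm k g h
  have h2 : ∀ k, ∀ Y Z : Deform.M2 H.algebra, ((G.R k * Y - Y * G.R k) * Z).trace ∈ m :=
    fun k Y Z =>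
    key (t.comp ((LinearMap.mulRight H.algebra Z).comp
      (LinearMap.mulLeft H.algebra (G.R k) - LinearMap.mulRight H.algebra (G.R k))))
      (fun g => h1 k g Z) Y
  have h3 : ∀ X Y Z : Deform.M2 H.algebra, ((X * Y - Y * X) * Z).trace ∈ m := fun X Y Z =>
    key (t.comp ((LinearMap.mulRight H.algebra Z).comp
      (LinearMap.mulRight H.algebra Y - LinearMap.mulLeft H.algebra Y)))
      (fun k => h2 k Y Z) X
  have := h3 (Matrix.single 0 1 1) (Matrix.single 1 0 1) (Matrix.single 0 0 1)
  simp [Matrix.trace_single_eq_same, sub_mul] at this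
  exact (maximalIdeal.isMaximal H.algebra).ne_top ((Ideal.eq_top_iff_one _).2 this)

set_option maxHeartbeats 800000 in
omit [NeZero L] in
include G hp in
theorem Glued.isAbsolutelyIrreducible (θ : H.algebra →ₐ[O] KBar O) :
    ((pt θ).adicRep (D := D)).residual.IsAbsolutelyIrreducible := by
  obtain ⟨k, g, h, hu⟩ := G.exists_trace_commutator
  refine isAbsolutelyIrreducible_of_trace_commutator _ ⟨k, g, h, by_contra fun hd => ?_⟩
  obtain ⟨y, hy⟩ := hu.exists_right_inv
  let d := LinearMap.trace (pt θ).R _ (((pt θ).adicRep (D := D)).ρ (k * g * h)) -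
    LinearMap.trace (pt θ).R _ (((pt θ).adicRep (D := D)).ρ (g * k * h))
  have hdj : (pt θ).j d = θ (LinearMap.trace H.algebra G.rep.V (G.rep.ρ (k * g * h)) -
      LinearMap.trace H.algebra G.rep.V (G.rep.ρ (g * k * h))) := by
    simp only [d]
    rw [map_sub, map_sub, G.trace_adicRep, G.trace_adicRep]
  -- `d` in the maximal ideal would make `p` invertible among the integral elements
  obtain ⟨n, hk⟩ := exists_pow_le_span (O := O) (A := (pt θ).R)
    (Nat.cast_ne_zero.2 (Fact.out : p.Prime).ne_zero)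
  have hn : d ^ n ∈ Ideal.span {((p : (pt θ).R))} := hk (Ideal.pow_mem_pow hd n)
  obtain ⟨a, ha⟩ := Ideal.mem_span_singleton'.1 hn
  refine one_ne_zero (α := KBar O) (eq_zero_of_forall_integral hp fun N => ?_)
  refine ⟨((pt θ).j a * θ (y ^ n)) ^ N,
    (((pt θ).isIntegral_j a).mul (isIntegral_point θ _)).pow N, ?_⟩
  rw [← mul_pow, ← mul_assoc, ← map_natCast (pt θ).j, ← map_mul, mul_comm _ a, ha, map_pow, hdj,
    ← map_pow θ, ← map_mul, ← mul_pow, hy, one_pow, map_one, one_pow]

set_option maxHeartbeats 800000 in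
omit [NeZero L] in
include hp in
theorem Glued.trace_sub_two_mem {ρbar : ResidualGaloisRep (ResidueField O)}
    [IsLocalHom (algebraMap O H.algebra)]
    (hG : G.rep.residual.IsEquiv
      (ρbar.baseChangeAlong (ResidueField.map (algebraMap O H.algebra))))
    (θ : H.algebra →ₐ[O] KBar O) {σ : AbsGal}
    (hσ : LinearMap.trace (ResidueField O) ρbar.V (ρbar.ρ σ) = 2) :
    LinearMap.trace (pt θ).R _ (((pt θ).adicRep (D := D)).ρ σ) - 2 ∈ maximalIdeal (pt θ).R := by
  obtain ⟨e⟩ := hG
  have hres : residue H.algebra (LinearMap.trace H.algebra G.rep.V (G.rep.ρ σ)) = 2 := by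
    have h1 : LinearMap.trace (ResidueField H.algebra) _ (G.rep.residual.ρ σ) =
        residue H.algebra (LinearMap.trace H.algebra G.rep.V (G.rep.ρ σ)) := by
      show LinearMap.trace _ _ ((G.rep.ρ σ).baseChange _) = _
      rw [LinearMap.trace_baseChange, ResidueField.algebraMap_eq]
    rw [← h1]
    set φ := ResidueField.map (algebraMap O H.algebra)
    have h2 : e.toLinearEquiv.conj (G.rep.residual.ρ σ) = (ρbar.baseChangeAlong φ).ρ σ :=
      LinearMap.ext fun x => by
        rw [LinearEquiv.conj_apply_apply, e.map_apply, LinearEquiv.apply_symm_apply]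
    rw [← LinearMap.trace_conj' (G.rep.residual.ρ σ) e.toLinearEquiv, h2]
    let : Algebra (ResidueField O) (ResidueField H.algebra) := φ.toAlgebra
    show LinearMap.trace _ _ ((ρbar.ρ σ).baseChange _) = _
    rw [LinearMap.trace_baseChange, hσ, map_ofNat]
  refine mem_maximal_of_point hp (pt θ)
    (x := LinearMap.trace H.algebra G.rep.V (G.rep.ρ σ) - 2) ?_ ?_
  · rw [← residue_eq_zero_iff, map_sub, hres, map_ofNat, sub_self]
  · rw [map_sub, map_sub, G.trace_adicRep, map_ofNat, map_ofNat]

end Fermat.Agent.RT.Glue
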