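import Mathlib

/-!
# A representation over a ring from pointwise representations with traces in the ring

Let `A` be a complete local ring embedded in a product of fields, and let a group have
two-dimensional representations over the fields whose traces come from `A` and whose residual
representation spans the matrices. They come from a representation over `A` if `2` is a unit, or
if some residual element is diagonal with distinct eigenvalues and its determinants come from `A`.
-/

set_option autoImplicit false
set_option linter.unusedSimpArgs false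

noncomputable section

open IsLocalRing Matrix

namespace Fermat.Agent.RT.Glue

section Units

variable {K : Type*} [Field K]

/-- For `tr e = 1` and `det e = 0` the sandwich `e X e` is `tr (X e) e`. -/
theorem sandwich_eq {e : Matrix (Fin 2) (Fin 2) K} (ht : e.trace = 1) (hd : e.det = 0)
    (X : Matrix (Fin 2) (Fin 2) K) : e * X * e = (X * e).trace • e := by
  rw [Matrix.trace_fin_two] at ht
  rw [Matrix.det_fin_two] at hd
  ext i j
  fin_cases i <;> fin_cases j <;>
    simp [Matrix.mul_apply, Fin.sum_univ_two, Matrix.trace_fin_two, Matrix.smul_apply] <;> grind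

theorem mul_self_eq {e : Matrix (Fin 2) (Fin 2) K} (ht : e.trace = 1) (hd : e.det = 0) :
    e * e = e := by
  rw [Matrix.trace_fin_two] at ht
  rw [Matrix.det_fin_two] at hd
  ext i j
  fin_cases i <;> fin_cases j <;> simp [Matrix.mul_apply, Fin.sum_univ_two] <;> grind

theorem det_one_sub {e : Matrix (Fin 2) (Fin 2) K} (ht : e.trace = 1) (hd : e.det = 0) :
    (1 - e).det = 0 := by
  rw [Matrix.trace_fin_two] at ht
  rw [Matrix.det_fin_two] at hd ⊢
  simp
  grind

theorem trace_one_sub {e : Matrix (Fin 2) (Fin 2) K} (ht : e.trace = 1) : (1 - e).trace = 1 := by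
  rw [Matrix.trace_sub, Matrix.trace_one, ht]
  simp
  norm_num

/-- A system of matrix units built from `e`, `y`, `z`. -/
def munit {R : Type*} [Ring R] (e y z : R) (a b : Fin 2) : R :=
  if a = 0 then (if b = 0 then e else e * z * (1 - e))
  else (if b = 0 then (1 - e) * y * e else 1 - e)

theorem munit_map {R R' : Type*} [Ring R] [Ring R'] (φ : R →+* R') (e y z : R) (a b : Fin 2) :
    φ (munit e y z a b) = munit (φ e) (φ y) (φ z) a b := by
  fin_cases a <;> fin_cases b <;> simp [munit]

/-- Coordinates with respect to the matrix units are multiplicative. -/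
theorem coord_mul {e y z : Matrix (Fin 2) (Fin 2) K} (ht : e.trace = 1) (hd : e.det = 0)
    (hc : (e * z * (1 - e) * y * e).trace = 1) (X Y : Matrix (Fin 2) (Fin 2) K) (a b : Fin 2) :
    (X * Y * munit e y z b a).trace =
      ∑ k, (X * munit e y z k a).trace * (Y * munit e y z b k).trace := by
  have hee := mul_self_eq ht hd
  have htQ := trace_one_sub ht
  have hdQ := det_one_sub ht hd
  have hQQ := mul_self_eq htQ hdQ
  have heQ : e * (1 - e) = 0 := by rw [mul_sub, mul_one, hee, sub_self]
  have hQe : (1 - e) * e = 0 := by rw [sub_mul, one_mul, hee, sub_self]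
  set f := munit e y z with hf
  have h00 : f 0 0 = e := rfl
  -- `e` kills the rows and columns
  have hl : ∀ k, f 0 k * f k 0 = e := by
    intro k
    fin_cases k
    · show e * e = e
      exact hee
    · show e * z * (1 - e) * ((1 - e) * y * e) = e
      have : e * z * (1 - e) * ((1 - e) * y * e) = e * (z * (1 - e) * y) * e := by
        rw [show e * z * (1 - e) * ((1 - e) * y * e) = e * z * ((1 - e) * (1 - e)) * y * e by
          simp only [mul_assoc], hQQ]
        simp only [mul_assoc]
      rw [this, sandwich_eq ht hd, ← hee, ← mul_assoc, Matrix.trace_mul_comm _ e]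
      rw [← mul_assoc, ← mul_assoc, ← mul_assoc, hee, hc, one_smul]
  have hr : ∀ k, f k 0 * f 0 k = (if k = 0 then e else 1 - e) := by
    intro k
    fin_cases k
    · show e * e = _
      simpa using hee
    · show (1 - e) * y * e * (e * z * (1 - e)) = _
      have : (1 - e) * y * e * (e * z * (1 - e)) = (1 - e) * (y * e * z) * (1 - e) := by
        rw [show (1 - e) * y * e * (e * z * (1 - e)) = (1 - e) * y * (e * e) * z * (1 - e) by
          simp only [mul_assoc], hee]
        simp only [mul_assoc]
      rw [this, sandwich_eq htQ hdQ]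
      have : (y * e * z * (1 - e)).trace = 1 := by
        rw [show y * e * z * (1 - e) = y * (e * (e * z * (1 - e))) by
          simp only [← mul_assoc]; rw [mul_assoc y e e, hee], ← mul_assoc,
          Matrix.trace_mul_comm, ← mul_assoc, hc]
      rw [this, one_smul]
      simp
  have hsum : ∑ k, f k 0 * f 0 k = 1 := by
    rw [Fin.sum_univ_two, hr, hr]; simp
  -- sandwiches
  have hsand : ∀ (a' b' : Fin 2) (W : Matrix (Fin 2) (Fin 2) K),
      f 0 a' * W * f b' 0 = (W * f b' a').trace • e := by
    intro a' b' W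
    have e1 : ∀ k, e * f 0 k = f 0 k := by
      intro k; fin_cases k
      · exact hee
      · show e * (e * z * (1 - e)) = e * z * (1 - e)
        rw [← mul_assoc, ← mul_assoc, hee]
    have e2 : ∀ k, f k 0 * e = f k 0 := by
      intro k; fin_cases k
      · exact hee
      · show (1 - e) * y * e * e = (1 - e) * y * e
        rw [mul_assoc, hee]
    have : f 0 a' * W * f b' 0 = e * (f 0 a' * W * f b' 0) * e := by
      rw [show e * (f 0 a' * W * f b' 0) * e = (e * f 0 a') * W * (f b' 0 * e) by
        simp only [mul_assoc], e1, e2]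
    rw [this, sandwich_eq ht hd, show f 0 a' * W * f b' 0 * e = f 0 a' * W * (f b' 0 * e) by
      simp only [mul_assoc], e2, mul_assoc, Matrix.trace_mul_comm, mul_assoc]
    congr 3
    -- `f b' 0 * f 0 a' = f b' a'`
    have : f b' 0 * f 0 a' = f b' a' := by
      fin_cases b' <;> fin_cases a'
      · exact hee
      · exact e1 1
      · exact e2 1
      · refine (hr 1).trans ?_
        simp [f, munit]
    exact this
  have key : (X * Y * f b a).trace • e = (∑ k, (X * f k a).trace * (Y * f b k).trace) • e := by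
    rw [← hsand, Finset.sum_smul]
    calc f 0 a * (X * Y) * f b 0 = f 0 a * X * (∑ k, f k 0 * f 0 k) * (Y * f b 0) := by
          rw [hsum, mul_one]; simp only [mul_assoc]
      _ = ∑ k, f 0 a * X * f k 0 * (f 0 k * Y * f b 0) := by
          rw [Finset.mul_sum, Finset.sum_mul]
          exact Finset.sum_congr rfl fun k _ => by simp only [mul_assoc]
      _ = _ := by
          refine Finset.sum_congr rfl fun k _ => ?_
          rw [hsand, hsand, smul_mul_smul_comm, hee]
  have he0 : e ≠ 0 := fun h0 => by simp [h0] at ht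
  exact smul_left_injective K he0 key

theorem coord_one {e y z : Matrix (Fin 2) (Fin 2) K} (ht : e.trace = 1) (hd : e.det = 0)
    (a b : Fin 2) : (munit e y z b a).trace = if a = b then 1 else 0 := by
  have hee := mul_self_eq ht hd
  have heQ : e * (1 - e) = 0 := by rw [mul_sub, mul_one, hee, sub_self]
  have hQe : (1 - e) * e = 0 := by rw [sub_mul, one_mul, hee, sub_self]
  fin_cases a <;> fin_cases b
  · simpa [munit] using ht
  · show ((1 - e) * y * e).trace = 0
    rw [Matrix.trace_mul_comm, ← mul_assoc, heQ, zero_mul, Matrix.trace_zero]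
  · show (e * z * (1 - e)).trace = 0
    rw [Matrix.trace_mul_comm, ← mul_assoc, hQe, zero_mul, Matrix.trace_zero]
  · simpa [munit] using trace_one_sub ht


/-- Cayley and Hamilton in dimension two. -/
theorem cayley_two (X : Matrix (Fin 2) (Fin 2) K) :
    X * X - X.trace • X + X.det • (1 : Matrix (Fin 2) (Fin 2) K) = 0 := by
  ext i j
  fin_cases i <;> fin_cases j <;>
    simp [Matrix.mul_apply, Fin.sum_univ_two, Matrix.trace_fin_two, Matrix.det_fin_two] <;> ring

/-- Coordinates with respect to matrix units. -/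
def coord (e y z : Matrix (Fin 2) (Fin 2) K) :
    Matrix (Fin 2) (Fin 2) K →ₗ[K] Matrix (Fin 2) (Fin 2) K where
  toFun X := Matrix.of fun a b => (X * munit e y z b a).trace
  map_add' X Y := by ext a b; simp [add_mul, Matrix.trace_add]
  map_smul' c X := by ext a b; simp [Matrix.trace_smul]

theorem coord_apply (e y z X : Matrix (Fin 2) (Fin 2) K) (a b : Fin 2) :
    coord e y z X a b = (X * munit e y z b a).trace := rfl

variable {e y z : Matrix (Fin 2) (Fin 2) K} (ht : e.trace = 1) (hd : e.det = 0)
  (hc : (e * z * (1 - e) * y * e).trace = 1)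

include ht hd in
theorem coord_unit : coord e y z 1 = 1 := by
  ext a b
  rw [coord_apply, one_mul, coord_one ht hd, Matrix.one_apply]

include ht hd hc in
theorem coord_map_mul (X Y : Matrix (Fin 2) (Fin 2) K) :
    coord e y z (X * Y) = coord e y z X * coord e y z Y := by
  ext a b
  rw [coord_apply, coord_mul ht hd hc, Matrix.mul_apply]
  exact Finset.sum_congr rfl fun k _ => rfl

theorem trace_coord (X : Matrix (Fin 2) (Fin 2) K) : (coord e y z X).trace = X.trace := by
  rw [Matrix.trace_fin_two, coord_apply, coord_apply, ← Matrix.trace_add, ← mul_add]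
  simp [munit]

include ht hd hc in
/-- The change of coordinates preserves determinants. -/
theorem det_coord (X : Matrix (Fin 2) (Fin 2) K) : (coord e y z X).det = X.det := by
  have h1 := congrArg (coord e y z) (cayley_two X)
  rw [map_zero, map_add, map_sub, map_smul, map_smul, coord_map_mul ht hd hc,
    coord_unit ht hd] at h1
  have h2 := cayley_two (coord e y z X)
  rw [trace_coord] at h2
  have h3 := congrFun (congrFun (h2.trans h1.symm) 0) 0
  simpa using h3

include ht hd hc in
/-- The coordinates determine the matrix. -/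
theorem eq_one_of_coord_eq_one {X : Matrix (Fin 2) (Fin 2) K} (h : coord e y z X = 1) : X = 1 := by
  have hk : ∀ a b, ((X - 1) * munit e y z b a).trace = 0 := fun a b => by
    rw [← coord_apply, map_sub, h, coord_unit ht hd, sub_self, Matrix.zero_apply]
  have hzero : ∀ Y : Matrix (Fin 2) (Fin 2) K, ((X - 1) * Y).trace = 0 := fun Y => by
    rw [← trace_coord (e := e) (y := y) (z := z), coord_map_mul ht hd hc,
      show coord e y z (X - 1) = 0 from Matrix.ext fun a b => hk a b, zero_mul, Matrix.trace_zero]
  refine sub_eq_zero.1 ?_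
  ext a b
  have := hzero (Matrix.single b a 1)
  rw [Matrix.trace_mul_single] at this
  simpa using this

end Units

variable {A : Type} [CommRing A] {G : Type} [Group G]

/-- The map of group algebras extending a representation. -/
def algHom {L : Type} [Field L] (f : A →+* L) (r : G →* Matrix (Fin 2) (Fin 2) L) :
    MonoidAlgebra A G →+* Matrix (Fin 2) (Fin 2) L :=
  MonoidAlgebra.liftNCRingHom ((Matrix.scalar (Fin 2)).comp f) r
    fun _ _ => Matrix.scalar_commute _ (fun _ => Commute.all _ _) _

theorem algHom_single {L : Type} [Field L] (f : A →+* L) (r : G →* Matrix (Fin 2) (Fin 2) L)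
    (g : G) (c : A) : algHom f r (MonoidAlgebra.single g c) = f c • r g := by
  simp [algHom, MonoidAlgebra.liftNCRingHom, Matrix.smul_eq_diagonal_mul]

/-- The extension of the prescribed traces to the group algebra. -/
def traceLin (tA : G → A) : MonoidAlgebra A G →ₗ[A] A :=
  (Finsupp.linearCombination A tA).comp (MonoidAlgebra.coeffLinearEquiv A).toLinearMap

omit [Group G] in
theorem traceLin_single (tA : G → A) (g : G) (c : A) :
    traceLin tA (MonoidAlgebra.single g c) = c * tA g := by
  show Finsupp.linearCombination A tA (MonoidAlgebra.coeff (MonoidAlgebra.single g c)) = _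
  rw [MonoidAlgebra.coeff_single, Finsupp.linearCombination_single, smul_eq_mul]

theorem trace_algHom {L : Type} [Field L] {f : A →+* L} {r : G →* Matrix (Fin 2) (Fin 2) L}
    {tA : G → A} (htr : ∀ σ, (r σ).trace = f (tA σ)) (w : MonoidAlgebra A G) :
    (algHom f r w).trace = f (traceLin tA w) := by
  induction w using MonoidAlgebra.induction_linear with
  | zero => simp
  | add x y hx hy => rw [map_add, map_add, Matrix.trace_add, hx, hy, map_add]
  | single g c => rw [algHom_single, traceLin_single, Matrix.trace_smul, htr, map_mul, smul_eq_mul]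

theorem algHom_surjective {k : Type} [Field k] {aug : A →+* k} (haug : Function.Surjective aug)
    {rbar : G →* Matrix (Fin 2) (Fin 2) k} (hspan : Submodule.span k (Set.range rbar) = ⊤) :
    Function.Surjective (algHom aug rbar) := by
  let Φb := algHom aug rbar
  have hΦb1 := algHom_single aug rbar
  intro X
  have hX : X ∈ Submodule.span k (Set.range rbar) := by rw [hspan]; trivial
  induction hX using Submodule.span_induction with
  | mem x hx =>
    obtain ⟨g, rfl⟩ := hx
    exact ⟨MonoidAlgebra.single g 1, by rw [hΦb1, map_one, one_smul]⟩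
  | zero => exact ⟨0, map_zero _⟩
  | add x y _ _ hx hy =>
    obtain ⟨a, ha⟩ := hx; obtain ⟨b, hb⟩ := hy
    exact ⟨a + b, by rw [map_add, ha, hb]⟩
  | smul c x _ hx =>
    obtain ⟨a, ha⟩ := hx
    obtain ⟨c', rfl⟩ := haug c
    refine ⟨MonoidAlgebra.single 1 c' * a, ?_⟩
    rw [map_mul, hΦb1, map_one rbar, ha, smul_mul_assoc, one_mul]

variable [IsLocalRing A]

theorem aug_eq_zero_iff {k : Type} [Field k] (aug : A →+* k) (haug : Function.Surjective aug)
    {a : A} : aug a = 0 ↔ a ∈ maximalIdeal A := by
  have := RingHom.ker_isMaximal_of_surjective aug haug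
  rw [← eq_maximalIdeal ‹(RingHom.ker aug).IsMaximal›, RingHom.mem_ker]

variable [IsAdicComplete (maximalIdeal A) A] {k : Type} [Field k] (aug : A →+* k) {ι : Type}
  (K : ι → Type) [∀ i, Field (K i)] (π : ∀ i, A →+* K i)
  (ρ : ∀ i, G →* Matrix (Fin 2) (Fin 2) (K i)) (tA : G → A)
  (rbar : G →* Matrix (Fin 2) (Fin 2) k)

set_option maxHeartbeats 1000000 in
/-- The representation over `A` in the frame of an element of the group algebra whose residual
image is diagonal with distinct eigenvalues. -/
theorem exists_glue_of_element (haug : Function.Surjective aug)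
    (hπ : ∀ x : A, (∀ i, π i x = 0) → x = 0)
    (htr : ∀ i σ, (ρ i σ).trace = π i (tA σ)) (hres : ∀ σ, (rbar σ).trace = aug (tA σ))
    (hspan : Submodule.span k (Set.range rbar) = ⊤) (x : MonoidAlgebra A G) (d : A)
    {u w : k} (huw : u ≠ w) (hx : algHom aug rbar x = !![u, 0; 0, w])
    (hdx : ∀ i, (algHom (π i) (ρ i) x).det = π i d) (hdb : aug d = u * w) :
    ∃ R : G →* Matrix (Fin 2) (Fin 2) A,
      (∀ σ, (R σ).map aug = rbar σ) ∧
      (∀ σ, (R σ).trace = tA σ) ∧
      (∀ i σ, π i (R σ).det = (ρ i σ).det) ∧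
      (∀ i σ, (R σ).map (π i) = 1 ↔ ρ i σ = 1) ∧
      ∀ (I : Ideal A) σ, (∀ g, tA (σ * g) - tA g ∈ I) →
        ∀ a b, R σ a b - (1 : Matrix (Fin 2) (Fin 2) A) a b ∈ I := by
  classical
  have hunit : ∀ {a : A}, aug a ≠ 0 → IsUnit a := fun {a} ha => by
    by_contra h
    exact ha ((aug_eq_zero_iff aug haug).2 h)
  let τ := traceLin tA
  have hτ1 := traceLin_single tA
  let Φ : ∀ i, MonoidAlgebra A G →+* Matrix (Fin 2) (Fin 2) (K i) := fun i => algHom (π i) (ρ i)
  let Φb := algHom aug rbar
  have hΦ1 : ∀ i g (c : A), Φ i (MonoidAlgebra.single g c) = π i c • ρ i g :=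
    fun i => algHom_single (π i) (ρ i)
  have hΦb1 : ∀ g (c : A), Φb (MonoidAlgebra.single g c) = aug c • rbar g := algHom_single aug rbar
  have htrΦ : ∀ i w, (Φ i w).trace = π i (τ w) := fun i => trace_algHom (htr i)
  have htrb : ∀ w, (Φb w).trace = aug (τ w) := trace_algHom hres
  have hsurj : Function.Surjective Φb := algHom_surjective haug hspan
  replace hx : Φb x = !![u, 0; 0, w] := hx
  obtain ⟨y, hy⟩ := hsurj !![0, 0; 1, 0]
  obtain ⟨z₀, hz₀⟩ := hsurj !![0, 1; 0, 0]
  set t := τ x with htdef
  have htb : aug t = u + w := by rw [← htrb, hx]; simp [Matrix.trace_fin_two]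
  -- the root
  obtain ⟨a₀, ha₀⟩ := haug u
  let P : Polynomial A := Polynomial.X ^ 2 - Polynomial.C t * Polynomial.X + Polynomial.C d
  have hP : P.Monic := by simp only [P]; monicity!
  obtain ⟨α, hα, hα1⟩ := HenselianRing.is_henselian (I := maximalIdeal A) P hP a₀
    (by
      rw [← aug_eq_zero_iff aug haug]
      simp [P, htb, hdb, ha₀]
      ring) (by
      refine (hunit ?_).map _
      simp [P, htb, ha₀]
      exact fun h => huw (by linear_combination h))
  have hαeq : α ^ 2 - t * α + d = 0 := by simpa [P, Polynomial.IsRoot] using hα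
  have hαb : aug α = u := by
    rw [← ha₀, ← sub_eq_zero, ← map_sub, aug_eq_zero_iff aug haug]; exact hα1
  have hu : IsUnit (2 * α - t) := by
    refine hunit ?_
    rw [map_sub, map_mul, htb, hαb, map_ofNat, two_mul, add_sub_add_left_eq_sub]
    exact sub_ne_zero.2 huw
  obtain ⟨u', hu'⟩ := hu
  obtain ⟨ui, hui⟩ : ∃ ui : A, ui * (2 * α - t) = 1 := ⟨↑u'⁻¹, by rw [← hu', Units.inv_mul]⟩
  obtain ⟨e, he⟩ : ∃ e : MonoidAlgebra A G,
      e = MonoidAlgebra.single 1 ui * (x - MonoidAlgebra.single 1 (t - α)) := ⟨_, rfl⟩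
  have hΦs : ∀ i (c : A), Φ i (MonoidAlgebra.single 1 c) = π i c • 1 := fun i c => by
    rw [hΦ1, map_one]
  have hΦe : ∀ i, (Φ i e).trace = 1 ∧ (Φ i e).det = 0 := by
    intro i
    have ht' := htrΦ i x
    have hdet' := hdx i
    rw [← htdef] at ht'
    have hroot := congrArg (π i) hαeq
    simp only [map_add, map_sub, map_mul, map_pow, map_zero] at hroot
    have huinv : π i ui * (2 * π i α - π i t) = 1 := by
      rw [← map_ofNat (π i) 2, ← map_mul, ← map_sub, ← map_mul, hui, map_one]
    rw [Matrix.trace_fin_two] at ht'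
    rw [Matrix.det_fin_two] at hdet'
    constructor
    · simp [he, map_mul, map_sub, hΦs, Matrix.trace_fin_two, Matrix.mul_apply,
        Fin.sum_univ_two]
      linear_combination (π i ui) * ht' + huinv
    · simp [he, map_mul, map_sub, hΦs, Matrix.det_fin_two, Matrix.mul_apply,
        Fin.sum_univ_two, -mul_eq_zero]
      linear_combination (π i ui) ^ 2 * (hdet' - (π i t - π i α) * ht' + hroot)
  have hΦbe : Φb e = !![1, 0; 0, 0] := by
    have hub : aug ui * (u - w) = 1 := by
      have := congrArg aug hui
      rw [map_mul, map_sub, map_mul, htb, hαb, map_one, map_ofNat, two_mul,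
        add_sub_add_left_eq_sub] at this
      exact this
    ext a b
    fin_cases a <;> fin_cases b <;>
      simp [he, map_mul, map_sub, hΦb1, hx, htb, hαb, hub]
  -- normalise `z`
  have h1e : (1 : Matrix (Fin 2) (Fin 2) k) - !![1, 0; 0, 0] = !![0, 0; 0, 1] := by
    ext a b; fin_cases a <;> fin_cases b <;> simp
  set c := τ (e * z₀ * (1 - e) * y * e) with hcdef
  have hcb : aug c = 1 := by
    rw [hcdef, ← htrb, map_mul, map_mul, map_mul, map_mul, map_sub, map_one, hΦbe, hy, hz₀, h1e]
    simp [Matrix.trace_fin_two, Matrix.mul_apply, Fin.sum_univ_two]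
  obtain ⟨uc, huc⟩ := hunit (a := c) (by rw [hcb]; exact one_ne_zero)
  obtain ⟨z, hzdef⟩ : ∃ z : MonoidAlgebra A G, z = MonoidAlgebra.single 1 (↑uc⁻¹ : A) * z₀ :=
    ⟨_, rfl⟩
  have hc : ∀ i, (Φ i e * Φ i z * (1 - Φ i e) * Φ i y * Φ i e).trace = 1 := by
    intro i
    have h3 : π i (↑uc⁻¹ : A) * (Φ i (e * z₀ * (1 - e) * y * e)).trace = 1 := by
      rw [htrΦ, ← map_mul, ← hcdef, ← huc, Units.inv_mul, map_one]
    simpa [hzdef, map_mul, map_sub, map_one, hΦs, smul_mul_assoc, mul_smul_comm,
      Matrix.trace_smul] using h3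
  have hΦbz : Φb z = !![0, 1; 0, 0] := by
    have hub : aug (↑uc⁻¹ : A) = 1 := by
      have := congrArg aug uc.inv_mul
      rwa [map_mul, huc, hcb, map_one, mul_one] at this
    simp [hzdef, map_mul, hΦb1, hz₀, hub]
  let F : G → Matrix (Fin 2) (Fin 2) A := fun σ =>
    Matrix.of fun a b => τ (MonoidAlgebra.single σ 1 * munit e y z b a)
  have hF : ∀ i σ, (F σ).map (π i) = coord (Φ i e) (Φ i y) (Φ i z) (ρ i σ) := by
    intro i σ
    ext a b
    show π i (τ _) = _
    rw [← htrΦ, map_mul, munit_map, hΦ1, map_one, one_smul, coord_apply]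
  have heq : ∀ {X Y : Matrix (Fin 2) (Fin 2) A}, (∀ i, X.map (π i) = Y.map (π i)) → X = Y := by
    intro X Y h
    ext a b
    refine sub_eq_zero.1 (hπ _ fun i => ?_)
    rw [map_sub, sub_eq_zero]
    exact congrFun (congrFun (h i) a) b
  have hone : F 1 = 1 := heq fun i => by
    rw [hF, map_one, coord_unit (hΦe i).1 (hΦe i).2, Matrix.map_one _ (map_zero _) (map_one _)]
  have hmul : ∀ σ σ', F (σ * σ') = F σ * F σ' := fun σ σ' => heq fun i => by
    rw [hF, map_mul, coord_map_mul (hΦe i).1 (hΦe i).2 (hc i), ← hF, ← hF, Matrix.map_mul]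
  let R : G →* Matrix (Fin 2) (Fin 2) A :=
    { toFun := F, map_one' := hone, map_mul' := hmul }
  have htrR : ∀ σ, (R σ).trace = tA σ := by
    intro σ
    show (F σ).trace = _
    rw [Matrix.trace_fin_two]
    show τ (_ * e) + τ (_ * (1 - e)) = _
    rw [← map_add, ← mul_add, add_sub_cancel, mul_one, hτ1, one_mul]
  refine ⟨R, fun σ => ?_, htrR, fun i σ => ?_, fun i σ => ⟨fun h => ?_, fun h => ?_⟩,
    fun I σ hI a b => ?_⟩
  · ext a b
    show aug (τ _) = _
    rw [← htrb, map_mul, munit_map, hΦb1, map_one, one_smul, hΦbe, hy, hΦbz]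
    fin_cases a <;> fin_cases b <;>
      simp [munit, h1e, Matrix.trace_fin_two, Matrix.mul_apply, Fin.sum_univ_two]
  · rw [RingHom.map_det, RingHom.mapMatrix_apply, show R σ = F σ from rfl, hF,
      det_coord (hΦe i).1 (hΦe i).2 (hc i)]
  · exact eq_one_of_coord_eq_one (hΦe i).1 (hΦe i).2 (hc i) ((hF i σ).symm.trans h)
  · show (F σ).map (π i) = _
    rw [hF, h, coord_unit (hΦe i).1 (hΦe i).2]
  · rw [← hone]
    show τ _ - τ _ ∈ I
    generalize munit e y z b a = w
    induction w using MonoidAlgebra.induction_linear with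
    | zero => simp
    | add p q hp hq => rw [mul_add, mul_add, map_add, map_add, add_sub_add_comm]; exact I.add_mem hp hq
    | single g r =>
      rw [MonoidAlgebra.single_mul_single, MonoidAlgebra.single_mul_single, hτ1, hτ1, one_mul,
        one_mul, ← mul_sub]
      exact I.mul_mem_left _ (hI g)

set_option maxHeartbeats 1000000 in
/-- The representation over `A` when `2` is a unit. -/
theorem exists_glue (rbar : G →* Matrix (Fin 2) (Fin 2) (ResidueField A)) (h2 : IsUnit (2 : A))
    (hπ : ∀ x : A, (∀ i, π i x = 0) → x = 0)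
    (htr : ∀ i σ, (ρ i σ).trace = π i (tA σ))
    (hres : ∀ σ, (rbar σ).trace = residue A (tA σ))
    (hspan : Submodule.span (ResidueField A) (Set.range rbar) = ⊤) :
    ∃ R : G →* Matrix (Fin 2) (Fin 2) A,
      (∀ σ, (R σ).map (residue A) = rbar σ) ∧
      (∀ σ, (R σ).trace = tA σ) ∧
      (∀ i σ, π i (R σ).det = (ρ i σ).det) ∧
      (∀ i σ, (R σ).map (π i) = 1 ↔ ρ i σ = 1) ∧
      ∀ (I : Ideal A) σ, (∀ g, tA (σ * g) - tA g ∈ I) →
        ∀ a b, R σ a b - (1 : Matrix (Fin 2) (Fin 2) A) a b ∈ I := by
  obtain ⟨x, hx⟩ := algHom_surjective residue_surjective hspan !![1, 0; 0, 0]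
  obtain ⟨u2, hu2⟩ := h2
  refine exists_glue_of_element (residue A) K π ρ tA rbar residue_surjective hπ htr hres hspan x
    ((↑u2⁻¹ : A) * (traceLin tA x ^ 2 - traceLin tA (x * x))) one_ne_zero hx (fun i => ?_) ?_
  · refine mul_left_cancel₀ ((u2.isUnit.map (π i)).ne_zero) ?_
    rw [← map_mul, ← mul_assoc, Units.mul_inv, one_mul, hu2, map_sub, map_pow,
      ← trace_algHom (htr i), ← trace_algHom (htr i), map_mul, map_ofNat, Matrix.det_fin_two,
      Matrix.trace_fin_two, Matrix.trace_fin_two]
    simp [Matrix.mul_apply, Fin.sum_univ_two]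
    ring
  · rw [map_mul, map_sub, map_pow, ← trace_algHom hres, ← trace_algHom hres, map_mul, hx]
    simp [Matrix.trace_fin_two]

end Fermat.Agent.RT.Glue
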