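import Fermat.Agent.RT.Glue.FlatDescent
import Mathlib.RingTheory.Filtration
import Mathlib.RingTheory.Ideal.Over

/-!
# Flatness from two jointly injective finite maps of coefficient rings
-/

set_option autoImplicit false

noncomputable section

open IsLocalRing Module
open scoped TensorProduct

namespace Fermat.Agent.RT.Glue

open FiniteFlat (GalOrder Zl)
open Arith (GQ QBar)

variable {R R' : Type} [CommRing R] [CommRing R'] {p : ℕ}

/-- In a finite algebra, the extension of an ideal with finite quotient has finite quotient. -/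
theorem finite_quotient_map [Algebra R R'] [Module.Finite R R'] (I : Ideal R) [Finite (R ⧸ I)] :
    Finite (R' ⧸ I.map (algebraMap R R')) := by
  have : Module.Finite (R ⧸ I) (R' ⧸ I.map (algebraMap R R')) :=
    Module.Finite.of_restrictScalars_finite R _ _
  exact Module.finite_of_finite (R ⧸ I)

variable [IsLocalRing R] [IsLocalRing R']

/-- A level of a base change, as a target of the representation. -/
theorem exists_toLevel (φ : R →+* R') (hφ : IsLocalHom φ) (ρ : GaloisRepAdic R)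
    (h : (ρ.baseChangeAlong φ hφ).IsFlatAt p) (J : Ideal R') [Finite (R' ⧸ J)] :
    ∃ (M : Type) (_ : AddCommGroup M) (_ : DistribMulAction GQ M) (_ : Finite M)
      (_ : GalOrder p M) (f : ρ.V →+ M),
      (∀ v, f v = 0 ↔ v ∈ J.comap φ • (⊤ : Submodule R ρ.V)) ∧
        ∀ (σ : GQ) v, f (ρ.ρ σ v) = σ • f v := by
  let : Algebra R R' := φ.toAlgebra
  obtain ⟨H, _, _, _, _, _, e, he, heσ⟩ := h.2 J inferInstance
  let ρ' := ρ.baseChangeAlong φ hφ
  let : DistribMulAction GQ (ρ'.V ⧸ (J • (⊤ : Submodule R' ρ'.V))) :=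
    EC.Rep.levelDistribMulAction ρ' J
  obtain ⟨O'⟩ := nonempty_galOrder_of_hopf e he heσ
  let b := Module.finBasisOfFinrankEq R ρ.V ρ.finrank_eq
  let b' : Basis (Fin 2) R' (R' ⊗[R] ρ.V) := b.baseChange R'
  let f : ρ.V →+ (R' ⊗[R] ρ.V) ⧸ (J • (⊤ : Submodule R' (R' ⊗[R] ρ.V))) :=
    (J • (⊤ : Submodule R' (R' ⊗[R] ρ.V))).mkQ.toAddMonoidHom.comp
      ((TensorProduct.mk R R' ρ.V 1).toAddMonoidHom)
  refine ⟨ρ'.V ⧸ (J • (⊤ : Submodule R' ρ'.V)), inferInstance, inferInstance,
    Module.finite_of_finite (R' ⧸ J), O', f, fun v => ?_, fun σ v => ?_⟩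
  · refine (Submodule.Quotient.mk_eq_zero _).trans ?_
    rw [CFT.Tangent.mem_ideal_smul_top_iff_repr b', CFT.Tangent.mem_ideal_smul_top_iff_repr b]
    refine forall_congr' fun i => ?_
    show b'.repr ((1 : R') ⊗ₜ[R] v) i ∈ J ↔ _
    rw [Basis.baseChange_repr_tmul, Ideal.mem_comap, Algebra.smul_def, mul_one]
    rfl
  · show Submodule.Quotient.mk ((1 : R') ⊗ₜ[R] ρ.ρ σ v) =
      Submodule.Quotient.mk ((ρ.ρ σ).baseChange R' ((1 : R') ⊗ₜ[R] v))
    rw [LinearMap.baseChange_tmul]

variable {R'' : Type} [CommRing R''] [IsLocalRing R'']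

/-- Flatness follows from flatness along two jointly injective finite local homomorphisms. -/
theorem isFlatAt_of_pair [IsNoetherianRing R] (φ : R →+* R') (hφ : IsLocalHom φ) (hfin : φ.Finite)
    (ψ : R →+* R'') (hψ : IsLocalHom ψ) (hfin' : ψ.Finite)
    (hinj : ∀ a, φ a = 0 → ψ a = 0 → a = 0) (ρ : GaloisRepAdic R)
    (h : (ρ.baseChangeAlong φ hφ).IsFlatAt p) (h' : (ρ.baseChangeAlong ψ hψ).IsFlatAt p) :
    ρ.IsFlatAt p := by
  classical
  let : Algebra R R' := φ.toAlgebra
  let : Algebra R R'' := ψ.toAlgebra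
  have : Module.Finite R R' := hfin
  have : Module.Finite R R'' := hfin'
  have hres : Finite (ResidueField R) :=
    haveI : IsLocalHom φ := hφ
    haveI := h.1
    Finite.of_injective _ (ResidueField.map φ).injective
  refine EC.Rep.isFlatAt_of_galOrder ρ p hres fun I hI => ?_
  obtain ⟨k, hk⟩ := IsLocalRing.exists_maximalIdeal_pow_le_of_isArtinianRing_quotient I
  let L : R →ₗ[R] R' × R'' := (Algebra.linearMap R R').prod (Algebra.linearMap R R'')
  obtain ⟨c, hc⟩ := Ideal.exists_pow_inf_eq_pow_smul (maximalIdeal R) (LinearMap.range L)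
  set m := maximalIdeal R ^ (k + c) with hm
  have hK : (m.map φ).comap φ ⊓ (m.map ψ).comap ψ ≤ I := by
    intro a ha
    refine hk ?_
    have hmem : L a ∈ m • (⊤ : Submodule R (R' × R'')) ⊓ LinearMap.range L := by
      refine ⟨?_, a, rfl⟩
      have h1 : φ a ∈ m • (⊤ : Submodule R R') := by
        rw [Ideal.smul_top_eq_map]; exact ha.1
      have h2 : ψ a ∈ m • (⊤ : Submodule R R'') := by
        rw [Ideal.smul_top_eq_map]; exact ha.2
      have e1 := Submodule.mem_map_of_mem (f := LinearMap.inl R R' R'') h1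
      have e2 := Submodule.mem_map_of_mem (f := LinearMap.inr R R' R'') h2
      rw [Submodule.map_smul''] at e1 e2
      have := add_mem (Submodule.smul_mono le_rfl le_top e1) (Submodule.smul_mono le_rfl le_top e2)
      show (φ a, ψ a) ∈ _
      simpa using this
    rw [hm, hc (k + c) (Nat.le_add_left c k), Nat.add_sub_cancel] at hmem
    have h2 := Submodule.smul_mono le_rfl inf_le_right hmem
    rw [LinearMap.range_eq_map, ← Submodule.map_smul''] at h2
    obtain ⟨b, hb, hba⟩ := h2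
    rw [smul_eq_mul, Ideal.mul_top] at hb
    have : b - a = 0 := hinj _
      (by rw [map_sub]; exact sub_eq_zero.2 (congrArg Prod.fst hba))
      (by rw [map_sub]; exact sub_eq_zero.2 (congrArg Prod.snd hba))
    exact sub_eq_zero.1 this ▸ hb
  have : Finite (R ⧸ maximalIdeal R) := hres
  have : Finite (R ⧸ m) :=
    Ideal.finite_quotient_pow (IsNoetherian.noetherian (maximalIdeal R)) _
  have : Finite (R' ⧸ m.map φ) := finite_quotient_map (R' := R') m
  have : Finite (R'' ⧸ m.map ψ) := finite_quotient_map (R' := R'') m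
  obtain ⟨M₁, _, _, _, O₁, f₁, hf₁, hσ₁⟩ := exists_toLevel φ hφ ρ h (m.map φ)
  obtain ⟨M₂, _, _, _, O₂, f₂, hf₂, hσ₂⟩ := exists_toLevel ψ hψ ρ h' (m.map ψ)
  set K := (m.map φ).comap φ ⊓ (m.map ψ).comap ψ
  let : DistribMulAction GQ (ρ.V ⧸ (K • (⊤ : Submodule R ρ.V))) :=
    EC.Rep.levelDistribMulAction ρ K
  let b := Module.finBasisOfFinrankEq R ρ.V ρ.finrank_eq
  have hker : ∀ v, f₁.prod f₂ v = 0 ↔ v ∈ K • (⊤ : Submodule R ρ.V) := fun v => by
    rw [AddMonoidHom.prod_apply, Prod.mk_eq_zero, hf₁, hf₂,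
      CFT.Tangent.mem_ideal_smul_top_iff_repr b, CFT.Tangent.mem_ideal_smul_top_iff_repr b,
      CFT.Tangent.mem_ideal_smul_top_iff_repr b]
    exact forall_and.symm
  let g : ρ.V ⧸ (K • (⊤ : Submodule R ρ.V)) →+ M₁ × M₂ :=
    QuotientAddGroup.lift (K • (⊤ : Submodule R ρ.V)).toAddSubgroup (f₁.prod f₂)
      fun v hv => (hker v).mpr hv
  have hginj : Function.Injective g := by
    refine (injective_iff_map_eq_zero g).mpr fun y hy => ?_
    obtain ⟨v, rfl⟩ := Submodule.Quotient.mk_surjective _ y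
    exact (Submodule.Quotient.mk_eq_zero _).mpr ((hker v).1 hy)
  have hgσ : ∀ (σ : GQ) y, g (σ • y) = σ • g y := fun σ y => by
    obtain ⟨v, rfl⟩ := Submodule.Quotient.mk_surjective _ y
    exact Prod.ext (hσ₁ σ v) (hσ₂ σ v)
  have hle : K • (⊤ : Submodule R ρ.V) ≤ I • (⊤ : Submodule R ρ.V) := Submodule.smul_mono_left hK
  refine ⟨ρ.V ⧸ (K • (⊤ : Submodule R ρ.V)), inferInstance, inferInstance,
    Finite.of_injective g hginj, (O₁.prod O₂).restrict g hginj hgσ,
    (Submodule.factor hle).toAddMonoidHom, Submodule.factor_surjective hle, fun σ y => ?_⟩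
  obtain ⟨v, rfl⟩ := Submodule.Quotient.mk_surjective _ y
  -- spelled out, as the kernel is slow to check a bare `rfl` here
  show Submodule.Quotient.mk (ρ.ρ σ v) = Submodule.Quotient.mk (ρ.ρ σ v)
  rfl

/-- Flatness descends along a finite injective local homomorphism. -/
theorem isFlatAt_of_baseChange [IsNoetherianRing R] (φ : R →+* R') (hφ : IsLocalHom φ)
    (hinj : Function.Injective φ) (hfin : φ.Finite) (ρ : GaloisRepAdic R)
    (h : (ρ.baseChangeAlong φ hφ).IsFlatAt p) : ρ.IsFlatAt p :=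
  isFlatAt_of_pair φ hφ hfin φ hφ hfin (fun _ ha _ => hinj (ha.trans (map_zero φ).symm)) ρ h h

end Fermat.Agent.RT.Glue
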