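import Fermat.Agent.RT.Glue.Approx
import Fermat.Agent.RT.Glue.Core
import Fermat.Agent.Deform.Matrix
import Fermat.Agent.Deform.Burnside
import Fermat.Prelude.Def_GaloisRep_LocalConditions

/-!
# The representation over the Hecke algebra of a Hecke module
-/

set_option autoImplicit false

noncomputable section

open IsLocalRing Module

namespace Fermat.Agent.RT.Glue

open GaloisReps (AbsGal HeckeGaloisModel)

variable {O : Type} [CommRing O] [IsDomain O] [IsDiscreteValuationRing O]
  [IsAdicComplete (maximalIdeal O) O] [Finite (ResidueField O)] [CharZero O]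
  {p : ℕ} [Fact p.Prime]
  {L : ℕ} [NeZero L] {Δ : Type} [CommGroup Δ] [Finite Δ] {ψ : (ZMod L)ˣ →* Δ} {S : Finset ℕ}
  {abar : ℕ → ResidueField O}
  (hp : (p : O) ∈ maximalIdeal O) {H : HeckeModule L ψ S abar}
  {hS : ∀ q : ℕ, q.Prime → q ∣ L → q ∈ S}

/-- A matrix representation over the Hecke algebra restricting to the representation of the newform
at every point. -/
structure Glued [IsLocalRing H.algebra] (D : ∀ (M : ℕ) [NeZero M], HeckeGaloisModel M p)
    (pt : ∀ θ : H.algebra →ₐ[O] KBar O, Point (p := p) H hS θ.toRingHom) where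
  R : AbsGal →* Deform.M2 H.algebra
  cont : Deform.IsCont R
  trace_eq : ∀ (θ : H.algebra →ₐ[O] KBar O) σ, θ (R σ).trace = ((pt θ).rep D σ).trace
  det_eq : ∀ (θ : H.algebra →ₐ[O] KBar O) σ, θ (R σ).det = ((pt θ).rep D σ).det
  map_eq_one : ∀ (θ : H.algebra →ₐ[O] KBar O) σ,
    (R σ).map θ = 1 ↔ (pt θ).rep D σ = 1
  det_congr : ∀ (n : ℕ) (σ : AbsGal) (a : ℕ),
    (∀ μ : AlgebraicClosure ℚ, μ ^ p ^ n = 1 → σ μ = μ ^ a) →
      (R σ).det - a ∈ Ideal.span {(p : H.algebra) ^ n}
  span_eq_top : Submodule.span H.algebra (Set.range R) = ⊤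

/-- The residual representation in the reduced standard basis. -/
theorem toMatrix_residual_toRep {A : Type} [CommRing A] [IsLocalRing A] {R : AbsGal →* Deform.M2 A}
    (hR : Deform.IsCont R) :
    ∃ B : Basis (Fin 2) (ResidueField A) (Deform.toRep R hR).residual.V, ∀ σ,
      LinearMap.toMatrix B B ((Deform.toRep R hR).residual.ρ σ) = (R σ).map (residue A) := by
  let b : Basis (Fin 2) A (Deform.toRep R hR).V := Pi.basisFun A (Fin 2)
  let B : Basis (Fin 2) (ResidueField A) (Deform.toRep R hR).residual.V :=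
    b.baseChange (ResidueField A)
  refine ⟨B, fun σ => Matrix.ext fun i j => ?_⟩
  show LinearMap.toMatrix (b.baseChange (ResidueField A)) (b.baseChange (ResidueField A))
    (((Deform.toRep R hR).ρ σ).baseChange (ResidueField A)) i j = _
  rw [LinearMap.toMatrix_apply, Basis.baseChange_apply, LinearMap.baseChange_tmul,
    Basis.baseChange_repr_tmul, Algebra.smul_def, mul_one, ResidueField.algebraMap_eq,
    Matrix.map_apply]
  refine congrArg (residue A) ?_
  show (Pi.basisFun A (Fin 2)).repr (Matrix.toLinAlgEquiv' (R σ) (Pi.basisFun A (Fin 2) j)) i = _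
  simp

/-- A base changed residual representation in the base changed basis. -/
theorem toMatrix_baseChangeAlong {k k' : Type} [Field k] [Field k'] (φ : k →+* k')
    (r : ResidualGaloisRep k) (b : Basis (Fin 2) k r.V) :
    ∃ B : Basis (Fin 2) k' (r.baseChangeAlong φ).V, ∀ σ,
      LinearMap.toMatrix B B ((r.baseChangeAlong φ).ρ σ) =
        (LinearMap.toMatrix b b (r.ρ σ)).map φ := by
  let : Algebra k k' := φ.toAlgebra
  let B : Basis (Fin 2) k' (r.baseChangeAlong φ).V := b.baseChange k'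
  refine ⟨B, fun σ => Matrix.ext fun i j => ?_⟩
  show LinearMap.toMatrix (b.baseChange k') (b.baseChange k') ((r.ρ σ).baseChange k') i j = _
  rw [LinearMap.toMatrix_apply, Basis.baseChange_apply, LinearMap.baseChange_tmul,
    Basis.baseChange_repr_tmul, Algebra.smul_def, mul_one, Matrix.map_apply,
    LinearMap.toMatrix_apply]
  rfl

/-- Residual representations with the same matrices are equivalent. -/
theorem isEquiv_of_toMatrix {k : Type} [Field k] {r₁ r₂ : ResidualGaloisRep k}
    (B₁ : Basis (Fin 2) k r₁.V) (B₂ : Basis (Fin 2) k r₂.V)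
    (h : ∀ σ, LinearMap.toMatrix B₁ B₁ (r₁.ρ σ) = LinearMap.toMatrix B₂ B₂ (r₂.ρ σ)) :
    r₁.IsEquiv r₂ := by
  let e : r₁.V ≃ₗ[k] r₂.V := B₁.equiv B₂ (Equiv.refl _)
  have he : ∀ i, e (B₁ i) = B₂ i := fun i => B₁.equiv_apply i B₂ (Equiv.refl _)
  refine ⟨⟨e, fun σ x => ?_⟩⟩
  refine LinearMap.congr_fun (f := (e : r₁.V →ₗ[k] r₂.V) ∘ₗ r₁.ρ σ)
    (g := r₂.ρ σ ∘ₗ (e : r₁.V →ₗ[k] r₂.V)) (B₁.ext fun j => ?_) x
  simp only [LinearMap.comp_apply, LinearEquiv.coe_coe, he]
  rw [← B₁.sum_repr (r₁.ρ σ (B₁ j)), ← B₂.sum_repr (r₂.ρ σ (B₂ j)), map_sum]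
  refine Finset.sum_congr rfl fun i _ => ?_
  rw [map_smul, he, ← LinearMap.toMatrix_apply, ← LinearMap.toMatrix_apply, h]

variable (hΔ : IsPGroup p Δ) (hp2 : p ≠ 2) (hpS : p ∈ S)
  {ρbar : ResidualGaloisRep (ResidueField O)} (habs : ρbar.IsAbsolutelyIrreducible)
  (hbar : HasCharpolys S abar ρbar)
  [IsLocalRing H.algebra] [IsLocalHom (algebraMap O H.algebra)]
  (D : ∀ (M : ℕ) [NeZero M], HeckeGaloisModel M p)
  (pt : ∀ θ : H.algebra →ₐ[O] KBar O, Point (p := p) H hS θ.toRingHom)

include hp hΔ in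
omit [IsAdicComplete (maximalIdeal O) O] [Finite (ResidueField O)] [CharZero O] [NeZero L]
  [IsLocalHom (algebraMap O H.algebra)] in
theorem isUnit_two (hp2 : p ≠ 2) : IsUnit (2 : H.algebra) := by
  by_contra h2
  have h2m : (2 : H.algebra) ∈ maximalIdeal H.algebra := h2
  obtain ⟨k, hk⟩ := (Fact.out : p.Prime).odd_of_ne_two hp2
  refine (maximalIdeal.isMaximal H.algebra).ne_top ((Ideal.eq_top_iff_one _).2 ?_)
  have h1 := sub_mem (natCast_mem (H := H) hp hΔ) (Ideal.mul_mem_right (k : H.algebra) _ h2m)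
  rw [hk] at h1
  simp at h1

set_option maxHeartbeats 1000000 in
include hp hΔ hp2 hpS habs hbar in
/-- The glued representation exists. -/
theorem exists_glued : ∃ G : Glued D pt, (Deform.toRep G.R G.cont).residual.IsEquiv
    (ρbar.baseChangeAlong (ResidueField.map (algebraMap O H.algebra))) := by
  classical
  have := isAdicComplete_algebra H
  choose tA htA htres using exists_trace hp hΔ D pt hpS hbar
  let b : Basis (Fin 2) (ResidueField O) ρbar.V :=
    Module.finBasisOfFinrankEq _ _ ρbar.finrank_eq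
  let φ := ResidueField.map (algebraMap O H.algebra)
  let rbar : AbsGal →* Deform.M2 (ResidueField H.algebra) :=
    Deform.mapM φ ((LinearMap.toMatrixAlgEquiv b).toMonoidHom.comp ρbar.ρ)
  have hrbar : ∀ σ, rbar σ = (LinearMap.toMatrixAlgEquiv b (ρbar.ρ σ)).map φ := fun σ => rfl
  have hres : ∀ σ, (rbar σ).trace = residue H.algebra (tA σ) := fun σ => by
    rw [htres, hrbar, LinearMap.trace_eq_matrix_trace (ResidueField O) b,
      AddMonoidHom.map_trace φ]
    rfl
  have hspan : Submodule.span (ResidueField H.algebra) (Set.range rbar) = ⊤ :=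
    Deform.span_map_eq_top φ (Deform.span_matrix_eq_top ρbar habs b)
  obtain ⟨R, hR, hRtr, hRdet, hRone, hRI⟩ := exists_glue
    (fun _ : H.algebra →ₐ[O] KBar O => KBar O) (fun θ => θ.toRingHom)
    (fun θ => (pt θ).rep D) tA rbar (isUnit_two hp hΔ hp2)
    (fun x hx => eq_zero_of_forall_point hx) (fun θ σ => htA σ θ) hres hspan
  choose c hc hc' using exists_det hp hΔ D pt
  have hdet : ∀ σ, (R σ).det = c σ := fun σ => sub_eq_zero.1 (eq_zero_of_forall_point fun θ => by
    rw [map_sub, sub_eq_zero, ← hc σ θ]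
    exact hRdet θ σ)
  have hcont : Deform.IsCont R := by
    intro n
    obtain ⟨N, hN⟩ := exists_saturation_algebra (H := H) hp hΔ n
    obtain ⟨F, hF, hlev⟩ := exists_levelField (L := L) D N
    refine ⟨F, hF, fun σ hσ i j => ?_⟩
    have hle : Ideal.span {(p : H.algebra) ^ n} ≤ maximalIdeal H.algebra ^ n :=
      (Ideal.span_singleton_le_iff_mem _).2 (Ideal.pow_mem_pow (natCast_mem hp hΔ) n)
    refine hle (hRI _ σ (fun g => hN _ fun θ => ?_) i j)
    have h1 : (((D (pt θ).M).gal (g⁻¹ * (σ * g))).map (PadicInt.toZModPow N)) = 1 := by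
      have h : (PadicInt.toZModPow N).mapMatrix ((D (pt θ).M).gal σ) = 1 :=
        hlev σ hσ _ (pt θ).dvd
      show (PadicInt.toZModPow N).mapMatrix _ = 1
      rw [map_mul, map_mul, map_mul, map_mul, h, one_mul, ← map_mul, ← map_mul, inv_mul_cancel,
        map_one, map_one]
    obtain ⟨r, hr, he⟩ := (pt θ).trace_congr D h1
    exact ⟨r, hr, by rw [map_sub, ← htA, ← htA, he]⟩
  refine ⟨⟨R, hcont, fun θ σ => ?_, hRdet, hRone, fun n σ a ha => ?_, ?_⟩, ?_⟩
  · rw [hRtr, htA]
  · rw [hdet]; exact hc' σ n a ha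
  · exact Deform.span_range_eq_top_of_map _ residue_surjective (fun a => (residue_eq_zero_iff a).mp)
      _ (by simpa only [hR] using hspan)
  · obtain ⟨B, hB⟩ := toMatrix_baseChangeAlong φ ρbar b
    obtain ⟨B', hB'⟩ := toMatrix_residual_toRep hcont
    refine isEquiv_of_toMatrix (r₁ := (Deform.toRep R hcont).residual)
      (r₂ := ρbar.baseChangeAlong φ)
      B' B fun σ => ?_
    rw [hB', hR, hB, hrbar]
    rfl

end Fermat.Agent.RT.Glue
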